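import Fermat.Agent.DefectGroups.Blocks
import Fermat.Agent.ThompsonTransfer.Frobenius

/-!
# Brauer's first main theorem

For `g ∈ C(D)` the classes of defect group `D` of `G` and of `N(D)` correspond, so the Brauer map
carries the ideal of `D` onto its part supported on `C(D)` in the centre of `k[N(D)]`, and there the
blocks with defect group `D` match.
-/

set_option autoImplicit false
set_option linter.style.haveILetI false

noncomputable section

open Finset
open scoped Classical

namespace FA.DefectGroups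

variable {k : Type*} [Field k] {G : Type*} [Group G] [Fintype G]
variable {p : ℕ} [hp : Fact p.Prime] [CharP k p]

variable (p) in
/-- `D` is a maximal `p`-subgroup commuting with `g`. -/
def Maximal' (D : Subgroup G) (g : G) : Prop :=
  ∀ P : Subgroup G, IsPGroup p P → D ≤ P → g ∈ Subgroup.centralizer (P : Set G) → P = D

omit [Field k] [CharP k p] hp in
theorem maximal_of_sub {D : Subgroup G} {g : G} (h : Sub p D g) : Maximal' p D g := by
  intro P hP hDP hg
  obtain ⟨c, hc⟩ := h P hP hg
  refine (Subgroup.eq_of_le_of_card_ge hDP ?_).symm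
  rw [Nat.card_congr (P.equivMapOfInjective (MulAut.conj c).toMonoidHom
    (MulAut.conj c).injective).toEquiv]
  refine Subgroup.card_le_of_le ?_
  rintro _ ⟨u, hu, rfl⟩
  exact hc u hu

omit [Field k] [CharP k p] in
/-- Maximal means Sylow in the centraliser. -/
theorem conj_in_centralizer {D : Subgroup G} (hD : IsPGroup p D) {g : G}
    (hgD : g ∈ Subgroup.centralizer (D : Set G)) (hM : Maximal' p D g) {P : Subgroup G}
    (hP : IsPGroup p P) (hgP : g ∈ Subgroup.centralizer (P : Set G)) :
    ∃ z : G, z * g = g * z ∧ ∀ u ∈ P, z * u * z⁻¹ ∈ D := by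
  set C := Subgroup.centralizer ({g} : Set G)
  have hle : ∀ Q : Subgroup G, g ∈ Subgroup.centralizer (Q : Set G) → Q ≤ C := fun Q hQ u hu =>
    Subgroup.mem_centralizer_singleton_iff.2 (Subgroup.mem_centralizer_iff.1 hQ u hu)
  obtain ⟨S, hS⟩ := (hD.comap_subtype (K := C)).exists_le_sylow
  obtain ⟨T, hT⟩ := (hP.comap_subtype (K := C)).exists_le_sylow
  have hSD : (S : Subgroup C).map C.subtype = D := hM _ (S.2.map _)
    (fun u hu => ⟨⟨u, hle D hgD hu⟩, hS (Subgroup.mem_subgroupOf.2 hu), rfl⟩) (by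
      rw [Subgroup.mem_centralizer_iff]
      rintro _ ⟨u, -, rfl⟩
      exact Subgroup.mem_centralizer_singleton_iff.1 u.2)
  obtain ⟨z, hz⟩ := MulAction.exists_smul_eq C T S
  refine ⟨z, Subgroup.mem_centralizer_singleton_iff.1 z.2, fun u hu => ?_⟩
  rw [← hSD, ← hz]
  exact ⟨z * ⟨u, hle P hgP hu⟩ * z⁻¹, ⟨_, hT (Subgroup.mem_subgroupOf.2 hu), rfl⟩, rfl⟩

omit [Field k] [CharP k p] in
theorem sub_of_maximal {D : Subgroup G} (hD : IsPGroup p D) {g : G}
    (hgD : g ∈ Subgroup.centralizer (D : Set G)) (hM : Maximal' p D g) : Sub p D g := fun _ hP hg =>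
  let ⟨z, _, hz⟩ := conj_in_centralizer hD hgD hM hP hg
  ⟨z, hz⟩

section

variable (D : Subgroup G)

local notation "N" => Subgroup.normalizer (D : Set G)

/-- `D` inside its normaliser. -/
abbrev Dn : Subgroup (Subgroup.normalizer (D : Set G)) := D.subgroupOf _

omit [Field k] [Fintype G] in
theorem mem_centralizer_Dn {n : N} :
    n ∈ Subgroup.centralizer (Dn D : Set N) ↔ (n : G) ∈ Subgroup.centralizer (D : Set G) := by
  simp only [Subgroup.mem_centralizer_iff, SetLike.mem_coe, Subgroup.mem_subgroupOf]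
  exact ⟨fun h u hu => congrArg Subtype.val (h ⟨u, Subgroup.le_normalizer hu⟩ hu),
    fun h u hu => Subtype.ext (h u hu)⟩

/-- The Brauer map into the normaliser. -/
def brN (x : MonoidAlgebra k G) : MonoidAlgebra k N :=
  mk fun n => if (n : G) ∈ Subgroup.centralizer (D : Set G) then x.coeff n else 0

theorem coeff_brN (x : MonoidAlgebra k G) (n : N) : (brN D x).coeff n =
    if (n : G) ∈ Subgroup.centralizer (D : Set G) then x.coeff n else 0 :=
  coeff_mk _ n

theorem brN_mem {x : MonoidAlgebra k G} (hx : x ∈ Z k G) : brN D x ∈ Z k N := by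
  refine mem_Z_iff.2 fun g h => ?_
  rw [coeff_brN, coeff_brN, Subgroup.coe_mul, Subgroup.coe_mul, Subgroup.coe_inv,
    mem_Z_iff.1 hx]
  have hiff : (g : G) * h * (g : G)⁻¹ ∈ Subgroup.centralizer (D : Set G) ↔
      (h : G) ∈ Subgroup.centralizer (D : Set G) := by
    simp only [Subgroup.mem_centralizer_iff, SetLike.mem_coe]
    constructor
    · intro h1 u hu
      have h2 := h1 ((g : G) * u * (g : G)⁻¹) ((Subgroup.mem_normalizer_iff.1 g.2 u).1 hu)
      rw [show (g : G) * u * (g : G)⁻¹ * ((g : G) * h * (g : G)⁻¹) =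
        g * (u * h) * (g : G)⁻¹ by group, show (g : G) * h * (g : G)⁻¹ *
          ((g : G) * u * (g : G)⁻¹) = g * (h * u) * (g : G)⁻¹ by group] at h2
      exact mul_left_cancel (mul_right_cancel h2)
    · intro h1 u hu
      have h2 := h1 ((g : G)⁻¹ * u * g) (by
        have h3 := (Subgroup.mem_normalizer_iff.1 (inv_mem g.2) u).1 hu
        rwa [inv_inv] at h3)
      calc u * ((g : G) * h * (g : G)⁻¹) = g * ((g : G)⁻¹ * u * g * h) * (g : G)⁻¹ := by group
        _ = g * (h * ((g : G)⁻¹ * u * g)) * (g : G)⁻¹ := by rw [h2]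
        _ = _ := by group
  simp only [hiff]

theorem brN_mul {D : Subgroup G} (hD : IsPGroup p D) {x y : MonoidAlgebra k G} (hx : x ∈ Z k G)
    (hy : y ∈ Z k G) : brN D (x * y) = brN D x * brN D y := ext_coeff fun n => by
  have hC : Subgroup.centralizer (D : Set G) ≤ Subgroup.normalizer (D : Set G) :=
    Subgroup.centralizer_le_normalizer _
  rw [coeff_mul_sum (brN D x), coeff_brN]
  split_ifs with hn
  · rw [coeff_mul_centralizer hD (fixed_of_class (mem_Z_iff.1 hx) D)
      (fixed_of_class (mem_Z_iff.1 hy) D) hn]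
    refine sum_bij_ne_zero (fun h hh _ => (⟨h, hC (mem_filter.1 hh).2⟩ : Subgroup.normalizer
        (D : Set G))) (fun _ _ _ => mem_univ _) (fun a _ _ b _ _ h => congrArg Subtype.val h)
      (fun b _ hb => ?_) fun h hh _ => ?_
    · simp only [coeff_brN] at hb
      have hb1 : (b : G) ∈ Subgroup.centralizer (D : Set G) := by
        by_contra h1
        rw [if_neg h1, zero_mul] at hb
        exact hb rfl
      refine ⟨b, mem_filter.2 ⟨mem_univ _, hb1⟩, ?_, rfl⟩
      rw [if_pos hb1, if_pos] at hb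
      · exact hb
      · exact mul_mem (inv_mem hb1) hn
    · rw [coeff_brN, coeff_brN, if_pos (mem_filter.1 hh).2, if_pos]
      · rfl
      · exact mul_mem (inv_mem (mem_filter.1 hh).2) hn
  · refine (sum_eq_zero fun h _ => ?_).symm
    rw [coeff_brN, coeff_brN]
    by_cases hh : (h : G) ∈ Subgroup.centralizer (D : Set G)
    · rw [if_neg (fun h2 : ((h⁻¹ * n : Subgroup.normalizer (D : Set G)) : G) ∈
        Subgroup.centralizer (D : Set G) => hn ?_), mul_zero]
      simpa using mul_mem hh h2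
    · rw [if_neg hh, zero_mul]

theorem brN_sub (x y : MonoidAlgebra k G) : brN D (x - y) = brN D x - brN D y :=
  ext_coeff fun n => by simp [coeff_brN, ite_sub_ite]

theorem brN_zero : brN D (0 : MonoidAlgebra k G) = 0 := ext_coeff fun n => by simp [coeff_brN]

theorem brN_one : brN D (1 : MonoidAlgebra k G) = 1 := ext_coeff fun n => by
  rw [coeff_brN, MonoidAlgebra.one_def, MonoidAlgebra.one_def, MonoidAlgebra.coeff_single,
    MonoidAlgebra.coeff_single, Finsupp.single_apply, Finsupp.single_apply]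
  by_cases h : (1 : N) = n
  · subst h; simp
  · have h' : (1 : G) ≠ (n : G) := fun he => h (Subtype.ext he)
    simp [h, h']

instance : (Dn D).Normal := Subgroup.normal_in_normalizer

theorem brN_ne_zero_iff (x : MonoidAlgebra k G) : brN D x ≠ 0 ↔ br D x ≠ 0 := by
  refine ⟨fun h h0 => h (ext_coeff fun n => ?_), fun h h0 => h (ext_coeff fun g => ?_)⟩
  · have h1 := congrArg (fun z : MonoidAlgebra k G => z.coeff n) h0
    simpa [coeff_brN, coeff_br] using h1
  · rw [coeff_br, MonoidAlgebra.coeff_zero, Finsupp.zero_apply]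
    split_ifs with hg
    · have h1 := congrArg (fun z : MonoidAlgebra k N =>
        z.coeff ⟨g, Subgroup.centralizer_le_normalizer _ hg⟩) h0
      simpa [coeff_brN, hg] using h1
    · rfl

theorem br_brN (x : MonoidAlgebra k G) : br (Dn D) (brN D x) = brN D x := ext_coeff fun n => by
  rw [coeff_br]
  by_cases hn : (n : G) ∈ Subgroup.centralizer (D : Set G)
  · rw [if_pos ((mem_centralizer_Dn D).2 hn)]
  · rw [if_neg fun h => hn ((mem_centralizer_Dn D).1 h), coeff_brN, if_neg hn]

end

variable {D : Subgroup G}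

omit [CharP k p] [Field k] in
/-- In the normaliser. -/
theorem maximal_iff_sub_normalizer (hD : IsPGroup p D) {n : Subgroup.normalizer (D : Set G)}
    (hn : (n : G) ∈ Subgroup.centralizer (D : Set G)) :
    Maximal' p D (n : G) ↔ Sub p (Dn D) n := by
  have hDN : D ≤ (Subgroup.normalizer (D : Set G)) := Subgroup.le_normalizer
  constructor
  · intro hM P hP hnP
    refine ⟨1, fun u hu => ?_⟩
    have hQ : IsPGroup p (P.map (Subgroup.normalizer (D : Set G)).subtype ⊔ D : Subgroup G) :=
      (hP.map _).to_sup_of_normal_right' hD (by rintro _ ⟨v, -, rfl⟩; exact v.2)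
    have h := hM _ hQ le_sup_right (by
      have hle : P.map (Subgroup.normalizer (D : Set G)).subtype ⊔ D ≤
          Subgroup.centralizer ({(n : G)} : Set G) := by
        refine sup_le ?_ fun v hv => Subgroup.mem_centralizer_singleton_iff.2
          (Subgroup.mem_centralizer_iff.1 hn v hv)
        rintro _ ⟨v, hv, rfl⟩
        exact Subgroup.mem_centralizer_singleton_iff.2
          (congrArg Subtype.val (Subgroup.mem_centralizer_iff.1 hnP v hv))
      exact Subgroup.mem_centralizer_iff.2 fun v hv =>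
        Subgroup.mem_centralizer_singleton_iff.1 (hle hv))
    have hm : (u : G) ∈ D := h.le (Subgroup.mem_sup_left ⟨u, hu, rfl⟩)
    simpa [Subgroup.mem_subgroupOf] using hm
  · intro hS P hP hDP hnP
    by_contra hne
    obtain ⟨x, hxP, hxD, hxN⟩ :=
      FA.Thompson.exists_normalizing hP (lt_of_le_of_ne hDP (Ne.symm hne))
    set R : Subgroup (Subgroup.normalizer (D : Set G)) :=
      (P ⊓ (Subgroup.normalizer (D : Set G))).subgroupOf (Subgroup.normalizer (D : Set G))
    have hR : IsPGroup p R := (hP.to_le inf_le_left).comap_subtype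
    obtain ⟨c, hc⟩ := hS R hR (Subgroup.mem_centralizer_iff.2 fun v hv => Subtype.ext
      (Subgroup.mem_centralizer_iff.1 hnP v (Subgroup.mem_subgroupOf.1 hv).1))
    have hcx := hc ⟨x, hxN⟩ (Subgroup.mem_subgroupOf.2 ⟨hxP, hxN⟩)
    rw [Subgroup.mem_subgroupOf] at hcx
    exact hxD ((Subgroup.mem_normalizer_iff.1 c.2 x).2 hcx)

omit [CharP k p] in
theorem brN_inI (hD : IsPGroup p D) {a : MonoidAlgebra k G} (ha : InI p D a) :
    InI p (Dn D) (brN D a) := by
  refine ⟨brN_mem D ha.1, fun n hn => ?_⟩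
  rw [coeff_brN, ne_eq, ite_eq_right_iff, Classical.not_imp] at hn
  exact (maximal_iff_sub_normalizer hD hn.1).1 (maximal_of_sub (ha.2 _ hn.2))

omit [CharP k p] in
/-- **The image of the ideal.** -/
theorem exists_preimage (hD : IsPGroup p D) {b : MonoidAlgebra k (Subgroup.normalizer (D : Set G))}
    (hb : InI p (Dn D) b) (hsupp : br (Dn D) b = b) :
    ∃ a, InI p D a ∧ brN D a = b := by
  set Good : G → (Subgroup.normalizer (D : Set G)) → Prop := fun x n =>
    (n : G) ∈ Subgroup.centralizer (D : Set G) ∧ Maximal' p D (n : G) ∧ IsConj (n : G) x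
  have hwd : ∀ {x n n'}, Good x n → Good x n' → b.coeff n = b.coeff n' := by
    intro x n n' hn hn'
    obtain ⟨c, hc⟩ := isConj_iff.1 (hn.2.2.trans hn'.2.2.symm)
    obtain ⟨z, hz, hzD⟩ := conj_in_centralizer hD hn'.1 hn'.2.1
      (hD.map (MulAut.conj c).toMonoidHom) (by
        rw [Subgroup.mem_centralizer_iff]
        rintro _ ⟨u, hu, rfl⟩
        show c * u * c⁻¹ * (n' : G) = n' * (c * u * c⁻¹)
        rw [← hc, show c * u * c⁻¹ * (c * n * c⁻¹) = c * (u * n) * c⁻¹ by group,
          Subgroup.mem_centralizer_iff.1 hn.1 u hu]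
        group)
    have hzc : ∀ u ∈ D, z * c * u * (z * c)⁻¹ ∈ D := fun u hu => by
      rw [show z * c * u * (z * c)⁻¹ = z * (c * u * c⁻¹) * z⁻¹ by group]
      exact hzD _ ⟨u, hu, rfl⟩
    have hmem : z * c ∈ (Subgroup.normalizer (D : Set G)) := by
      have heq := map_conj_eq hzc le_rfl
      refine Subgroup.mem_normalizer_iff.2 fun u => ⟨hzc u, fun h => ?_⟩
      rw [← heq] at h
      obtain ⟨v, hv, he⟩ := h
      exact (mul_left_cancel (mul_right_cancel
        (show z * c * v * (z * c)⁻¹ = z * c * u * (z * c)⁻¹ from he))) ▸ hv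
    rw [← mem_Z_iff.1 hb.1 ⟨z * c, hmem⟩ n]
    congr 1
    refine Subtype.ext ?_
    show z * c * (n : G) * (z * c)⁻¹ = (n' : G)
    rw [show z * c * (n : G) * (z * c)⁻¹ = z * (c * n * c⁻¹) * z⁻¹ by group, hc, hz,
      mul_inv_cancel_right]
  set a : MonoidAlgebra k G := mk fun x => if h : ∃ n, Good x n then b.coeff h.choose else 0
  have hcls : IsClass a := fun g x => by
    have hiff : ∀ n, Good (g * x * g⁻¹) n ↔ Good x n := fun n => by
      refine and_congr_right fun _ => and_congr_right fun _ =>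
        ⟨fun h => h.trans ?_, fun h => h.trans ?_⟩
      · exact isConj_iff.2 ⟨g⁻¹, by group⟩
      · exact isConj_iff.2 ⟨g, rfl⟩
    simp only [a, coeff_mk]
    by_cases h : ∃ n, Good x n
    · obtain ⟨n, hn⟩ := id h
      have h' : ∃ n, Good (g * x * g⁻¹) n := ⟨n, (hiff n).2 hn⟩
      rw [dif_pos h', dif_pos h]
      exact hwd ((hiff _).1 h'.choose_spec) h.choose_spec
    · rw [dif_neg h, dif_neg fun ⟨n, hn⟩ => h ⟨n, (hiff n).1 hn⟩]
  refine ⟨a, ⟨mem_Z_iff.2 hcls, fun x hx => ?_⟩, ext_coeff fun n => ?_⟩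
  · simp only [a, coeff_mk] at hx
    split_ifs at hx with h
    · obtain ⟨n, hnC, hnM, hnx⟩ := h
      obtain ⟨c, rfl⟩ := isConj_iff.1 hnx
      intro P hP hgP
      obtain ⟨d, hd⟩ := sub_of_maximal hD hnC hnM (P.map (MulAut.conj c⁻¹).toMonoidHom)
        (hP.map _) (by
          rw [Subgroup.mem_centralizer_iff]
          rintro _ ⟨u, hu, rfl⟩
          show c⁻¹ * u * c⁻¹⁻¹ * (n : G) = n * (c⁻¹ * u * c⁻¹⁻¹)
          calc c⁻¹ * u * c⁻¹⁻¹ * (n : G) = c⁻¹ * (u * (c * n * c⁻¹)) * c := by group
            _ = c⁻¹ * ((c * n * c⁻¹) * u) * c := by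
              rw [Subgroup.mem_centralizer_iff.1 hgP u hu]
            _ = _ := by group)
      refine ⟨d * c⁻¹, fun u hu => ?_⟩
      rw [show d * c⁻¹ * u * (d * c⁻¹)⁻¹ = d * (c⁻¹ * u * c⁻¹⁻¹) * d⁻¹ by group]
      exact hd _ ⟨u, hu, rfl⟩
    · exact absurd rfl hx
  · rw [coeff_brN, ← hsupp, coeff_br]
    simp only [mem_centralizer_Dn]
    split_ifs with hn
    · simp only [a, coeff_mk]
      by_cases hM : Maximal' p D (n : G)
      · have h : ∃ n', Good (n : G) n' := ⟨n, hn, hM, IsConj.refl _⟩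
        rw [dif_pos h]
        exact hwd h.choose_spec ⟨hn, hM, IsConj.refl _⟩
      · have hb0 : b.coeff n = 0 := by
          by_contra h0
          exact hM ((maximal_iff_sub_normalizer hD hn).2 (hb.2 n h0))
        rw [hb0, dif_neg]
        rintro ⟨n', hn'C, hn'M, hconj⟩
        obtain ⟨c, hc⟩ := isConj_iff.1 hconj
        refine hM fun P hP hDP hnP => (Subgroup.eq_of_le_of_card_ge hDP ?_).symm
        obtain ⟨d, hd⟩ := sub_of_maximal hD hn'C hn'M (P.map (MulAut.conj c⁻¹).toMonoidHom)
          (hP.map _) (by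
            rw [Subgroup.mem_centralizer_iff]
            rintro _ ⟨u, hu, rfl⟩
            show c⁻¹ * u * c⁻¹⁻¹ * (n' : G) = n' * (c⁻¹ * u * c⁻¹⁻¹)
            calc c⁻¹ * u * c⁻¹⁻¹ * (n' : G) = c⁻¹ * (u * (c * n' * c⁻¹)) * c := by group
              _ = c⁻¹ * ((c * n' * c⁻¹) * u) * c := by
                rw [hc, Subgroup.mem_centralizer_iff.1 hnP u hu]
              _ = _ := by group)
        rw [Nat.card_congr (P.equivMapOfInjective (MulAut.conj (d * c⁻¹)).toMonoidHom
          (MulAut.conj (d * c⁻¹)).injective).toEquiv]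
        refine Subgroup.card_le_of_le ?_
        rintro _ ⟨u, hu, rfl⟩
        show d * c⁻¹ * u * (d * c⁻¹)⁻¹ ∈ D
        rw [show d * c⁻¹ * u * (d * c⁻¹)⁻¹ = d * (c⁻¹ * u * c⁻¹⁻¹) * d⁻¹ by group]
        exact hd _ ⟨u, hu, rfl⟩
    · rfl

/-- **Central idempotents live on the centraliser of a normal `p`-subgroup.** -/
theorem br_eq_self {P : Subgroup G} [P.Normal] (hP : IsPGroup p P) {e : MonoidAlgebra k G}
    (he : e ∈ Z k G) (hee : e * e = e) : br P e = e := by
  have hbrZ : br P e ∈ Z k G := mem_Z_iff.2 fun g h => by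
    haveI : (Subgroup.centralizer (P : Set G)).Normal := Subgroup.normal_centralizer
    have hiff : g * h * g⁻¹ ∈ Subgroup.centralizer (P : Set G) ↔
        h ∈ Subgroup.centralizer (P : Set G) := by
      refine ⟨fun h1 => ?_, fun h1 => Subgroup.Normal.conj_mem inferInstance h h1 g⟩
      have h2 := Subgroup.Normal.conj_mem inferInstance _ h1 g⁻¹
      rwa [show g⁻¹ * (g * h * g⁻¹) * g⁻¹⁻¹ = h by group] at h2
    simp only [coeff_br, hiff, mem_Z_iff.1 he g h]
  set f := br P e
  have hfx : ∀ {x : MonoidAlgebra k G}, x ∈ Z k G → Fixed P x := fun hx =>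
    fixed_of_class (mem_Z_iff.1 hx) P
  have hff : f * f = f := by rw [← br_mul hP (hfx he) (hfx he), hee]
  have hbrf : br P f = f := ext_coeff fun g => by
    simp only [f, coeff_br]
    split_ifs <;> rfl
  have hcomm : e * f = f * e := Subalgebra.mem_center_iff.1 hbrZ e
  have hz : ∀ r ∈ Z k G, r * r = r → br P r = 0 → r = 0 := fun r hr hrr h0 => by
    by_contra hne
    exact br_ne_zero_of_normal hP hr hrr hne h0
  have hbef : br P (e * f) = f := by rw [br_mul hP (hfx he) (hfx hbrZ), hbrf, hff]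
  have hidem : ∀ a b : MonoidAlgebra k G, a * a = a → b * b = b → a * b = b * a →
      (a - a * b) * (a - a * b) = a - a * b := fun a b ha hb hab => by
    rw [sub_mul, mul_sub, mul_sub, ha, ← mul_assoc a a b, ha, mul_assoc a b a, ← hab,
      ← mul_assoc a a b, ha, Commute.mul_mul_mul_comm hab.symm, ha, hb]
    abel
  have h1 := hz _ (sub_mem he (mul_mem he hbrZ)) (hidem e f hee hff hcomm)
    (by rw [br_sub, hbef, sub_self])
  have h2 := hz _ (sub_mem hbrZ (mul_mem hbrZ he)) (hidem f e hff hee hcomm.symm)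
    (by rw [br_sub, ← hcomm, hbef, hbrf, sub_self])
  rw [sub_eq_zero] at h1 h2
  rw [h2, ← hcomm, ← h1]

omit [CharP k p] hp [Fintype G] in
theorem pow_eq_of_idem {e : MonoidAlgebra k G} (h : e * e = e) {m : ℕ} (hm : m ≠ 0) :
    e ^ m = e := by
  obtain ⟨i, rfl⟩ := Nat.exists_eq_succ_of_ne_zero hm
  exact (IsIdempotentElem.pow_succ_eq i h)

/-- The Brauer image of a block of defect group `D` is a block of defect group `D`. -/
theorem brN_isBlock (hD : IsPGroup p D) {e : MonoidAlgebra k G} (he : IsBlock e)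
    (hdef : IsDefect p D e) : IsBlock (brN D e) ∧ IsDefect p (Dn D) (brN D e) := by
  set f := brN D e
  have hfZ : f ∈ Z k (Subgroup.normalizer (D : Set G)) := brN_mem D he.1
  have hff : f * f = f := by rw [← brN_mul hD he.1 he.1, he.2.1]
  have hf0 : f ≠ 0 := (brN_ne_zero_iff D e).2 hdef.2.2
  have hfI : InI p (Dn D) f := brN_inI hD hdef.2.1
  refine ⟨⟨hfZ, hff, hf0, fun f₁ hf₁ hf₁₁ hf₁f => ?_⟩, hD.comap_subtype, hfI,
    by rw [br_brN]; exact hf0⟩
  have h1 : InI p (Dn D) f₁ := by
    have h := hfI.mul hf₁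
    rwa [Subalgebra.mem_center_iff.1 hf₁ f, hf₁f] at h
  obtain ⟨a, haI, ha⟩ := exists_preimage hD h1 (br_eq_self (P := Dn D) hD.comap_subtype hf₁ hf₁₁)
  have hea : brN D (e * a) = f₁ := by
    rw [brN_mul hD he.1 haI.1, ha]
    show f * f₁ = f₁
    rw [Subalgebra.mem_center_iff.1 hf₁ f, hf₁f]
  rcases he.nilpotent_or_unit haI.1 with ⟨n, hn⟩ | ⟨y, hy, hye⟩
  · left
    have hm := mul_mem he.1 haI.1
    have hpow : ∀ i, brN D ((e * a) ^ (i + 1)) = f₁ := fun i => by
      induction i with
      | zero => rw [zero_add, pow_one, hea]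
      | succ i ih => rw [pow_succ, brN_mul hD (pow_mem hm _) hm, ih, hea, hf₁₁]
    rw [← hpow n, pow_succ, hn, zero_mul, brN_zero]
  · right
    have h2 : brN D y * f₁ = f := by rw [← hea, ← brN_mul hD hy (mul_mem he.1 haI.1), hye]
    calc f₁ = f₁ * f := hf₁f.symm
      _ = f₁ * (brN D y * f₁) := by rw [h2]
      _ = brN D y * (f₁ * f₁) := by
        rw [← mul_assoc, ← mul_assoc, Subalgebra.mem_center_iff.1 (brN_mem D hy) f₁]
      _ = f := by rw [hf₁₁, h2]

/-- **Brauer's first main theorem.** -/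
theorem first_main (hD : IsPGroup p D) :
    Set.BijOn (brN D) {e : MonoidAlgebra k G | IsBlock e ∧ IsDefect p D e}
      {f : MonoidAlgebra k (Subgroup.normalizer (D : Set G)) |
        IsBlock f ∧ IsDefect p (Dn D) f} := by
  refine ⟨fun e he => brN_isBlock hD he.1 he.2, fun e he e' he' heq => ?_, fun f hf => ?_⟩
  · have hne := (brN_ne_zero_iff D e).2 he.2.2.2
    have hprod : brN D (e * e') ≠ 0 := by
      rw [brN_mul hD he.1.1 he'.1.1, ← heq, ← brN_mul hD he.1.1 he.1.1, he.1.2.1]
      exact hne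
    have hee : e * e' ≠ 0 := fun h => hprod (by rw [h, brN_zero])
    have hc := Subalgebra.mem_center_iff.1 he'.1.1 e
    have hid : e * e' * (e * e') = e * e' := by
      rw [Commute.mul_mul_mul_comm hc.symm, he.1.2.1, he'.1.2.1]
    have h1 := (he'.1.2.2.2 _ (mul_mem he.1.1 he'.1.1) hid
      (by rw [mul_assoc, he'.1.2.1])).resolve_left hee
    have h2 := (he.1.2.2.2 _ (mul_mem he.1.1 he'.1.1) hid
      (by rw [mul_assoc, ← hc, ← mul_assoc, he.1.2.1])).resolve_left hee
    rw [← h2, h1]
  · obtain ⟨hfB, -, hfI, -⟩ := hf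
    obtain ⟨a, haI, ha⟩ :=
      exists_preimage hD hfI (br_eq_self (P := Dn D) hD.comap_subtype hfB.1 hfB.2.1)
    obtain ⟨e, he, -, hfe⟩ := exists_block (k := k) (G := G) (fun x => f * brN D x ≠ 0)
      (by rw [brN_zero, mul_zero, not_not]) (fun x y hx _ hy _ hyx hfx => by
        by_contra hcon
        push Not at hcon
        refine hfx ?_
        have h2 := hcon.2
        rwa [brN_sub, mul_sub, hcon.1, sub_zero] at h2)
      (one_mem _) (one_mul 1) (by rw [brN_one, mul_one]; exact hfB.2.2.1)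
    have heZ := brN_mem D he.1
    have hee : brN D e * brN D e = brN D e := by rw [← brN_mul hD he.1 he.1, he.2.1]
    have hidem : f * brN D e * (f * brN D e) = f * brN D e := by
      rw [Commute.mul_mul_mul_comm (show Commute (brN D e) f from
        (Subalgebra.mem_center_iff.1 hfB.1 _)), hfB.2.1, hee]
    have hfb : f * brN D e = f := (hfB.2.2.2 _ (mul_mem hfB.1 heZ) hidem (by
      rw [mul_assoc, ← Subalgebra.mem_center_iff.1 heZ f, ← mul_assoc, hfB.2.1])).resolve_left hfe
    have hea : brN D (e * a) = f := by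
      rw [brN_mul hD he.1 haI.1, ha, Subalgebra.mem_center_iff.1 hfB.1, hfb]
    rcases he.nilpotent_or_unit haI.1 with ⟨n, hn⟩ | ⟨y, hy, hye⟩
    · exfalso
      have hm := mul_mem he.1 haI.1
      have hpow : ∀ i, brN D ((e * a) ^ (i + 1)) = f := fun i => by
        induction i with
        | zero => rw [zero_add, pow_one, hea]
        | succ i ih => rw [pow_succ, brN_mul hD (pow_mem hm _) hm, ih, hea, hfB.2.1]
      exact hfB.2.2.1 (by rw [← hpow n, pow_succ, hn, zero_mul, brN_zero])
    · have heI : InI p D e := by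
        have h := haI.mul (mul_mem hy he.1)
        rwa [← Subalgebra.mem_center_iff.1 haI.1 (y * e), mul_assoc, hye] at h
      have hdef : IsDefect p D e := ⟨hD, heI, (brN_ne_zero_iff D e).1 fun h0 => hfe (by
        rw [h0, mul_zero])⟩
      refine ⟨e, ⟨he, hdef⟩, ?_⟩
      exact (((brN_isBlock hD he hdef).1.2.2.2 f hfB.1 hfB.2.1 hfb).resolve_left hfB.2.2.1).symm

/-- **One block**, if a normal `p`-subgroup contains its centraliser. -/
theorem block_eq_one {P : Subgroup G} [P.Normal] (hP : IsPGroup p P)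
    (hCP : Subgroup.centralizer (P : Set G) ≤ P) {e : MonoidAlgebra k G} (he : e ∈ Z k G)
    (hee : e * e = e) : e = 0 ∨ e = 1 := by
  set A := Subgroup.centralizer (P : Set G)
  haveI : IsMulCommutative A := ⟨⟨fun a b => Subtype.ext
    (Subgroup.mem_centralizer_iff.1 b.2 a (hCP a.2))⟩⟩
  letI : CommGroup A := { (inferInstance : Group A) with mul_comm := fun a b => mul_comm' a b }
  haveI : CharP (MonoidAlgebra k A) p :=
    charP_of_injective_algebraMap (algebraMap k (MonoidAlgebra k A)).injective p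
  set φ := MonoidAlgebra.mapDomainRingHom k A.subtype
  obtain ⟨m, hm⟩ := IsPGroup.iff_card.1 hP
  set x : MonoidAlgebra k A := ∑ a : A, MonoidAlgebra.single a (e.coeff a)
  have hx : φ x = e := by
    simp only [x, φ, map_sum, MonoidAlgebra.mapDomainRingHom_apply, MonoidAlgebra.mapDomain_single,
      Subgroup.coe_subtype]
    refine ext_coeff fun g => ?_
    simp only [MonoidAlgebra.coeff_sum, Finsupp.finsetSum_apply, MonoidAlgebra.coeff_single,
      Finsupp.single_apply]
    by_cases hg : g ∈ A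
    · rw [Finset.sum_eq_single (⟨g, hg⟩ : A) (fun b _ hb => by
        rw [if_neg fun h => hb (Subtype.ext h)]) (by simp)]
      simp
    · rw [sum_eq_zero (s := (univ : Finset A)) fun b _ =>
        if_neg fun h : (b : G) = g => hg (h ▸ b.2)]
      have h := congrArg (fun z : MonoidAlgebra k G => z.coeff g) (br_eq_self hP he hee)
      have hg' : g ∉ Subgroup.centralizer (P : Set G) := hg
      simp only [coeff_br, if_neg hg'] at h
      exact h
  set r : k := ∑ a : A, e.coeff a ^ p ^ m
  have hpm : x ^ p ^ m = MonoidAlgebra.single 1 r := by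
    simp only [x, r, sum_pow_char_pow, MonoidAlgebra.single_pow]
    rw [← MonoidAlgebra.singleAddHom_apply, map_sum]
    refine sum_congr rfl fun a _ => ?_
    have : a ^ p ^ m = 1 := by
      refine Subtype.ext ?_
      have h := congrArg Subtype.val
        (show (⟨(a : G), hCP a.2⟩ : P) ^ p ^ m = 1 by rw [← hm]; exact pow_card_eq_one')
      simpa using h
    rw [this, MonoidAlgebra.singleAddHom_apply]
  have he1 : e = r • (1 : MonoidAlgebra k G) := by
    rw [← pow_eq_of_idem hee (pow_ne_zero m hp.out.ne_zero), ← hx, ← map_pow, hpm]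
    simp [φ, MonoidAlgebra.one_def, MonoidAlgebra.smul_single]
  have hr : r * r = r := by
    have h1 := congrArg (fun z : MonoidAlgebra k G => z.coeff 1) hee
    rw [he1] at h1
    simpa [MonoidAlgebra.one_def, MonoidAlgebra.coeff_single] using h1
  rcases mul_eq_zero.1 (show r * (r - 1) = 0 by rw [mul_sub, hr, mul_one, sub_self]) with h | h
  · left; rw [he1, h, zero_smul]
  · right; rw [he1, sub_eq_zero.1 h, one_smul]

end FA.DefectGroups

end
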