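import Fermat.Agent.DefectGroups.Basic
import Mathlib.Data.ZMod.Basic

/-!
# Defect groups

Every block has a defect group, unique up to conjugacy.  A nonzero central idempotent does not
vanish on the centraliser of a normal `p`-subgroup, so these subgroups lie in every defect group.
-/

set_option autoImplicit false
set_option linter.style.haveILetI false

noncomputable section

open Finset
open scoped Classical

namespace FA.DefectGroups

variable {k : Type*} [Field k] {G : Type*} [Group G] [Fintype G]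
variable {p : ℕ} [hp : Fact p.Prime] [CharP k p]

theorem coeff_single_mul' (u : G) (x : MonoidAlgebra k G) (g : G) :
    (MonoidAlgebra.single u (1 : k) * x).coeff g = x.coeff (u⁻¹ * g) := by
  rw [coeff_mul_sum, Finset.sum_eq_single u (fun b _ hb => by
    simp [MonoidAlgebra.coeff_single, Ne.symm hb]) (by simp)]
  simp [MonoidAlgebra.coeff_single]

/-- A `p`-group fixes a nonzero element of the span of the translates of any nonzero element. -/
theorem exists_fixed_translates {N : Subgroup G} (hN : IsPGroup p N) {x : MonoidAlgebra k G}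
    (hx : x ≠ 0) : ∃ c : N → ZMod p,
      (∑ u : N, (ZMod.castHom (dvd_refl p) k (c u)) • (MonoidAlgebra.single (u : G) 1 * x)) ≠ 0 ∧
      ∀ v ∈ N, MonoidAlgebra.single v (1 : k) *
        (∑ u : N, (ZMod.castHom (dvd_refl p) k (c u)) • (MonoidAlgebra.single (u : G) 1 * x)) =
        ∑ u : N, (ZMod.castHom (dvd_refl p) k (c u)) • (MonoidAlgebra.single (u : G) 1 * x) := by
  let φ : (N → ZMod p) →+ MonoidAlgebra k G :=
    { toFun := fun c => ∑ u : N,
        (ZMod.castHom (dvd_refl p) k (c u)) • (MonoidAlgebra.single (u : G) 1 * x)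
      map_zero' := by simp
      map_add' := fun a b => by simp [add_smul, sum_add_distrib] }
  have hmove : ∀ (v : N) (c : N → ZMod p),
      MonoidAlgebra.single (v : G) (1 : k) * φ c = φ fun u => c (v⁻¹ * u) := fun v c => by
    show _ * ∑ u : N, _ = ∑ u : N, _
    rw [mul_sum]
    refine Fintype.sum_equiv (Equiv.mulLeft v) _ _ fun u => ?_
    rw [mul_smul_comm, ← mul_assoc, MonoidAlgebra.single_mul_single, one_mul]
    simp
  letI : MulAction N φ.range :=
    { smul := fun v w => ⟨MonoidAlgebra.single (v : G) (1 : k) * w, by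
        obtain ⟨c, hc⟩ := w.2
        exact ⟨_, by rw [← hc]; exact (hmove v c).symm⟩⟩
      one_smul := fun w => Subtype.ext (by
        show MonoidAlgebra.single ((1 : N) : G) (1 : k) * _ = _
        rw [OneMemClass.coe_one, ← MonoidAlgebra.one_def, one_mul])
      mul_smul := fun a b w => Subtype.ext (by
        show MonoidAlgebra.single ((a * b : N) : G) (1 : k) * _ =
          MonoidAlgebra.single (a : G) (1 : k) * (MonoidAlgebra.single (b : G) (1 : k) * _)
        rw [← mul_assoc, MonoidAlgebra.single_mul_single, one_mul, Subgroup.coe_mul]) }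
  haveI : Finite φ.range := Set.finite_coe_iff.2 (Set.finite_range φ)
  obtain ⟨r, hr⟩ : ∃ r, Nat.card φ.range = p ^ r := by
    have h : Nat.card φ.range ∣ p ^ Nat.card N := by
      refine (φ.rangeRestrict_surjective |>
        AddSubgroup.card_dvd_of_surjective φ.rangeRestrict).trans
        (dvd_of_eq ?_)
      simp [Nat.card_eq_fintype_card]
    obtain ⟨r, -, hr⟩ := (Nat.dvd_prime_pow hp.out).1 h
    exact ⟨r, hr⟩
  have hxm : x ∈ φ.range := ⟨Pi.single 1 1, by
    show ∑ u : N, _ = x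
    rw [Finset.sum_eq_single (1 : N) (fun b _ hb => by simp [Pi.single_eq_of_ne hb]) (by simp),
      Pi.single_eq_same, map_one, one_smul, OneMemClass.coe_one, ← MonoidAlgebra.one_def,
      one_mul]⟩
  have hdvd : p ∣ Nat.card φ.range := by
    rw [hr]
    refine dvd_pow_self p fun h0 => ?_
    rw [h0, pow_zero, Nat.card_eq_one_iff_unique] at hr
    haveI := hr.1
    exact hx (congrArg Subtype.val (Subsingleton.elim (⟨x, hxm⟩ : φ.range) 0))
  obtain ⟨⟨w, c, hc⟩, hfix, hne⟩ :=
    hN.exists_fixed_point_of_prime_dvd_card_of_fixed_point φ.range hdvd (a := 0)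
      (fun v => Subtype.ext (mul_zero _))
  refine ⟨c, fun h => hne (Subtype.ext (by
    show (0 : MonoidAlgebra k G) = w
    rw [← hc]; exact h.symm)), fun v hv => ?_⟩
  have h := congrArg Subtype.val (hfix ⟨v, hv⟩)
  change MonoidAlgebra.single v (1 : k) * w = w at h
  rw [← hc] at h
  exact h

/-- **A central idempotent vanishing on `C(N)`**, `N` a normal `p`-subgroup, is zero. -/
theorem br_ne_zero_of_normal {N : Subgroup G} [N.Normal] (hN : IsPGroup p N)
    {e : MonoidAlgebra k G} (he : e ∈ Z k G) (hee : e * e = e) (hne : e ≠ 0) : br N e ≠ 0 := by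
  intro hbr
  have hcls := mem_Z_iff.1 he
  have h0 : ∀ g, ∑ v : N, e.coeff (g * v) = 0 := fun g => by
    have hs : ∑ v : N, e.coeff (g * v) =
        ∑ h ∈ univ.filter (fun h => g⁻¹ * h ∈ N), e.coeff h :=
      sum_bij (fun v _ => g * (v : G)) (fun v _ => mem_filter.2 ⟨mem_univ _, by simp⟩)
        (fun a _ b _ h => Subtype.ext (mul_left_cancel h))
        (fun h hh => ⟨⟨_, (mem_filter.1 hh).2⟩, mem_univ _, mul_inv_cancel_left g h⟩)
        fun v _ => rfl
    rw [hs, sum_fixed hN _ (fun u hu h hh => mem_filter.2 ⟨mem_univ _, ?_⟩)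
      (fun u _ h _ => hcls u h)]
    · refine sum_eq_zero fun h hh => ?_
      have h1 := congrArg (fun z : MonoidAlgebra k G => z.coeff h) hbr
      simpa [coeff_br, (mem_filter.1 hh).2] using h1
    · have h1 := ‹N.Normal›.conj_mem u hu g⁻¹
      rw [inv_inv] at h1
      rw [show g⁻¹ * (u * h * u⁻¹) = g⁻¹ * u * g * (g⁻¹ * h) * u⁻¹ by group]
      exact N.mul_mem (N.mul_mem h1 (mem_filter.1 hh).2) (N.inv_mem hu)
  obtain ⟨c, hcne, hfix⟩ := exists_fixed_translates (p := p) hN hne
  set w := ∑ u : N, (ZMod.castHom (dvd_refl p) k (c u)) • (MonoidAlgebra.single (u : G) 1 * e)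
  have hew : e * w = w := by
    simp only [w, mul_sum, mul_smul_comm, ← mul_assoc,
      ← Subalgebra.mem_center_iff.1 he (MonoidAlgebra.single _ (1 : k))]
    simp only [mul_assoc, hee]
  refine hcne (hew ▸ ext_coeff fun g => ?_)
  have hinv : ∀ v ∈ N, ∀ y, w.coeff (v * y) = w.coeff y := fun v hv y => by
    conv_lhs => rw [← hfix v hv, coeff_single_mul', inv_mul_cancel_left]
  rw [coeff_mul_sum, MonoidAlgebra.coeff_zero, Finsupp.zero_apply]
  -- group the sum along the cosets of `N`
  have hsum : ∀ v : N, ∑ h, e.coeff h * w.coeff (h⁻¹ * g) =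
      ∑ h, e.coeff (h * v) * w.coeff (h⁻¹ * g) := fun v => by
    refine (Fintype.sum_equiv (Equiv.mulRight (v : G)) _ _ fun h => ?_).symm
    rw [Equiv.coe_mulRight, mul_inv_rev, mul_assoc, hinv _ (N.inv_mem v.2)]
  rw [← sum_fiberwise univ (fun h => (QuotientGroup.mk h : G ⧸ N))]
  refine sum_eq_zero fun q _ => ?_
  obtain ⟨g₀, rfl⟩ := QuotientGroup.mk_surjective q
  rw [show univ.filter (fun h => (QuotientGroup.mk h : G ⧸ N) = QuotientGroup.mk g₀) =
      univ.image (fun v : N => g₀ * (v : G)) by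
    ext h
    simp only [mem_filter, mem_univ, true_and, mem_image, QuotientGroup.eq]
    exact ⟨fun hm => ⟨⟨g₀⁻¹ * h, by simpa using N.inv_mem hm⟩, by simp⟩,
      fun ⟨v, hv⟩ => by rw [← hv]; simp⟩,
    sum_image fun a _ b _ h => Subtype.ext (mul_left_cancel h)]
  refine Eq.trans (sum_congr rfl (g := fun v : N => e.coeff (g₀ * (v : G)) * w.coeff (g₀⁻¹ * g))
    fun v _ => ?_) ?_
  · rw [mul_inv_rev, mul_assoc, hinv _ (N.inv_mem v.2)]
  · rw [← sum_mul, h0, zero_mul]

omit [CharP k p] hp in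
/-- A property that survives in one part of every splitting holds of some block. -/
theorem exists_block (P : MonoidAlgebra k G → Prop) (h0 : ¬ P 0)
    (hsplit : ∀ e f, e ∈ Z k G → e * e = e → f ∈ Z k G → f * f = f → f * e = f → P e →
      P f ∨ P (e - f))
    {e : MonoidAlgebra k G} (he : e ∈ Z k G) (hee : e * e = e) (hPe : P e) :
    ∃ b, IsBlock b ∧ b * e = b ∧ P b := by
  induction hd : Module.finrank k (LinearMap.range (LinearMap.mulLeft k e)) using
    Nat.strong_induction_on generalizing e with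
  | _ d ih =>
    by_cases hprim : ∀ f ∈ Z k G, f * f = f → f * e = f → f = 0 ∨ f = e
    · exact ⟨e, ⟨he, hee, fun h => h0 (h ▸ hPe), hprim⟩, hee, hPe⟩
    push Not at hprim
    obtain ⟨f, hf, hff, hfe, hf0, hfne⟩ := hprim
    have hef : e * f = f := by rw [← Subalgebra.mem_center_iff.1 he, hfe]
    have hfe2 : (e - f) * (e - f) = e - f := by
      rw [sub_mul, mul_sub, mul_sub, hee, hef, hfe, hff, sub_self, sub_zero]
    have key : ∀ f' ∈ Z k G, f' * f' = f' → f' * e = f' → f' ≠ e → P f' →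
        ∃ b, IsBlock b ∧ b * e = b ∧ P b := fun f' hf' hf'f hf'e hne hP => by
      have hef' : e * f' = f' := by rw [← Subalgebra.mem_center_iff.1 he, hf'e]
      have hlt : LinearMap.range (LinearMap.mulLeft k f') <
          LinearMap.range (LinearMap.mulLeft k e) := by
        refine lt_of_le_of_ne ?_ fun h => hne ?_
        · rintro _ ⟨y, rfl⟩
          exact ⟨f' * y, by simp [← mul_assoc, hef']⟩
        · obtain ⟨y, hy⟩ : e ∈ LinearMap.range (LinearMap.mulLeft k f') := h ▸ ⟨1, by simp⟩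
          simp only [LinearMap.mulLeft_apply] at hy
          calc f' = f' * e := hf'e.symm
            _ = e := by rw [← hy, ← mul_assoc, hf'f]
      obtain ⟨b, hb, hbf, hPb⟩ :=
        ih _ (hd ▸ Submodule.finrank_lt_finrank_of_lt hlt) hf' hf'f hP rfl
      exact ⟨b, hb, by rw [← hbf, mul_assoc, hf'e], hPb⟩
    rcases hsplit e f he hee hf hff hfe hPe with h | h
    · exact key f hf hff hfe hfne h
    · exact key (e - f) (sub_mem he hf) hfe2 (by rw [sub_mul, hee, hfe])
        (fun h' => hf0 (by simpa using h')) h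

variable (p) in
/-- A defect group. -/
def IsDefect (D : Subgroup G) (e : MonoidAlgebra k G) : Prop :=
  IsPGroup p D ∧ InI p D e ∧ br D e ≠ 0

omit [CharP k p] hp in
theorem exists_coeff_of_br {P : Subgroup G} {e : MonoidAlgebra k G} (h : br P e ≠ 0) :
    ∃ g ∈ Subgroup.centralizer (P : Set G), e.coeff g ≠ 0 := by
  by_contra! hall
  refine h (ext_coeff fun g => ?_)
  rw [coeff_br, MonoidAlgebra.coeff_zero, Finsupp.zero_apply]
  split_ifs with hg
  exacts [hall g hg, rfl]

omit [CharP k p] hp in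
theorem br_ne_zero_of_coeff {P : Subgroup G} {e : MonoidAlgebra k G} {g : G}
    (hg : g ∈ Subgroup.centralizer (P : Set G)) (h : e.coeff g ≠ 0) : br P e ≠ 0 := fun h0 => by
  have h1 := congrArg (fun z : MonoidAlgebra k G => z.coeff g) h0
  simp [coeff_br, hg, h] at h1

omit [CharP k p] hp in
/-- **Where the Brauer map does not vanish.** -/
theorem InI.subconj {D P : Subgroup G} {e : MonoidAlgebra k G} (he : InI p D e)
    (hP : IsPGroup p P) (h : br P e ≠ 0) : ∃ c : G, ∀ u ∈ P, c * u * c⁻¹ ∈ D := by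
  obtain ⟨g, hg, hne⟩ := exists_coeff_of_br h
  exact he.2 g hne P hP hg

omit [CharP k p] hp in
theorem IsDefect.br_iff {D P : Subgroup G} {e : MonoidAlgebra k G} (hD : IsDefect p D e)
    (he : e ∈ Z k G) (hP : IsPGroup p P) :
    br P e ≠ 0 ↔ ∃ c : G, ∀ u ∈ P, c * u * c⁻¹ ∈ D := by
  refine ⟨fun h => hD.2.1.subconj hP h, fun ⟨c, hc⟩ => ?_⟩
  obtain ⟨g, hg, hne⟩ := exists_coeff_of_br hD.2.2
  refine br_ne_zero_of_coeff (g := c⁻¹ * g * c) (Subgroup.mem_centralizer_iff.2 fun u hu => ?_) ?_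
  · calc u * (c⁻¹ * g * c) = c⁻¹ * ((c * u * c⁻¹) * g) * c := by group
      _ = c⁻¹ * (g * (c * u * c⁻¹)) * c := by
        rw [Subgroup.mem_centralizer_iff.1 hg _ (hc u hu)]
      _ = c⁻¹ * g * c * u := by group
  · have h := mem_Z_iff.1 he c⁻¹ g
    rw [inv_inv] at h
    rwa [h]

omit [CharP k p] hp [Field k] in
theorem map_conj_eq {D E : Subgroup G} {c : G} (hc : ∀ u ∈ D, c * u * c⁻¹ ∈ E)
    (hcard : Nat.card E ≤ Nat.card D) : D.map (MulAut.conj c).toMonoidHom = E := by
  refine Subgroup.eq_of_le_of_card_ge ?_ ?_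
  · rintro _ ⟨u, hu, rfl⟩
    exact hc u hu
  · rwa [← Nat.card_congr (D.equivMapOfInjective _ (MulAut.conj c).injective).toEquiv]

/-- **Defect groups exist.** -/
theorem exists_defect {e : MonoidAlgebra k G} (he : IsBlock e) :
    ∃ D : Subgroup G, IsDefect p D e := by
  obtain ⟨S⟩ : Nonempty (Sylow p G) := inferInstance
  obtain ⟨D, ⟨hDp, hDe⟩, hmin⟩ := Set.exists_min_image
    {D : Subgroup G | IsPGroup p D ∧ InI p D e} (fun D => Nat.card D) (Set.toFinite _)
    ⟨S, S.2, inI_sylow S he.1⟩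
  refine ⟨D, hDp, hDe, fun hbr => ?_⟩
  choose Q hQp hQg hQs using fun g : G => exists_sylow_centralizer (p := p) g
  set part : ConjClasses G → MonoidAlgebra k G := fun K =>
    mk fun h => if ConjClasses.mk h = K then e.coeff h else 0
  have hpartZ : ∀ K, part K ∈ Z k G := fun K => mem_Z_iff.2 fun g h => by
    have hc : ConjClasses.mk (g * h * g⁻¹) = ConjClasses.mk h :=
      (ConjClasses.mk_eq_mk_iff_isConj.2 (isConj_iff.2 ⟨g, rfl⟩)).symm
    simp only [part, coeff_mk, hc, mem_Z_iff.1 he.1 g h]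
  have hsum : e = ∑ K, part K := ext_coeff fun h => by
    rw [MonoidAlgebra.coeff_sum, Finsupp.finsetSum_apply]
    simp [part, coeff_mk]
  obtain ⟨K, -, y, hy, hye⟩ := he.rosenberg univ part (fun K _ => hpartZ K) hsum
  obtain ⟨g, rfl⟩ := ConjClasses.mk_surjective K
  have hI : InI p (Q g) (part (ConjClasses.mk g)) := by
    refine ⟨hpartZ _, fun h hh P hP hhP => ?_⟩
    simp only [part, coeff_mk, ne_eq, ite_eq_right_iff, Classical.not_imp] at hh
    obtain ⟨c, hc⟩ := isConj_iff.1 (ConjClasses.mk_eq_mk_iff_isConj.1 hh.1)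
    obtain ⟨d, hd⟩ := hQs g (P.map (MulAut.conj c).toMonoidHom) (hP.map _) (by
      rw [Subgroup.mem_centralizer_iff]
      rintro _ ⟨u, hu, rfl⟩
      show c * u * c⁻¹ * g = g * (c * u * c⁻¹)
      rw [← hc, show c * u * c⁻¹ * (c * h * c⁻¹) = c * (u * h) * c⁻¹ by group,
        Subgroup.mem_centralizer_iff.1 hhP u hu]
      group)
    refine ⟨d * c, fun u hu => ?_⟩
    rw [show d * c * u * (d * c)⁻¹ = d * (c * u * c⁻¹) * d⁻¹ by group]
    exact hd _ ⟨u, hu, rfl⟩
  have heQ : InI p (Q g) e := by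
    have h := hI.mul (mul_mem hy he.1)
    rwa [Subalgebra.mem_center_iff.1 (mul_mem hy he.1) (part (ConjClasses.mk g)) |>.symm.symm,
      mul_assoc, hye] at h
  have hg0 : e.coeff g ≠ 0 := fun h0 => he.2.2.1 (by
    rw [← hye, show part (ConjClasses.mk g) = 0 from ext_coeff fun h => ?_, mul_zero, mul_zero]
    simp only [part, coeff_mk, MonoidAlgebra.coeff_zero, Finsupp.zero_apply, ite_eq_right_iff]
    intro hh
    obtain ⟨c, rfl⟩ := isConj_iff.1 (ConjClasses.mk_eq_mk_iff_isConj.1 hh.symm)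
    rw [mem_Z_iff.1 he.1, h0])
  obtain ⟨c, hc⟩ := hDe.2 g hg0 (Q g) (hQp g) (hQg g)
  have hmap := map_conj_eq hc (hmin (Q g) ⟨hQp g, heQ⟩)
  refine br_ne_zero_of_coeff (g := c * g * c⁻¹) (e := e) ?_ (by rwa [mem_Z_iff.1 he.1]) hbr
  rw [← hmap, Subgroup.mem_centralizer_iff]
  rintro _ ⟨u, hu, rfl⟩
  show c * u * c⁻¹ * (c * g * c⁻¹) = c * g * c⁻¹ * (c * u * c⁻¹)
  rw [show c * u * c⁻¹ * (c * g * c⁻¹) = c * (u * g) * c⁻¹ by group,
    Subgroup.mem_centralizer_iff.1 (hQg g) u hu]
  group

omit [CharP k p] hp in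
/-- **Defect groups are conjugate.** -/
theorem IsDefect.conj {D E : Subgroup G} {e : MonoidAlgebra k G} (hD : IsDefect p D e)
    (hE : IsDefect p E e) : ∃ c : G, D.map (MulAut.conj c).toMonoidHom = E := by
  obtain ⟨c, hc⟩ := hE.2.1.subconj hD.1 hD.2.2
  obtain ⟨d, hd⟩ := hD.2.1.subconj hE.1 hE.2.2
  refine ⟨c, map_conj_eq hc ?_⟩
  rw [Nat.card_congr (E.equivMapOfInjective (MulAut.conj d).toMonoidHom
    (MulAut.conj d).injective).toEquiv]
  refine Subgroup.card_le_of_le ?_
  rintro _ ⟨u, hu, rfl⟩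
  exact hd u hu

/-- **Normal `p`-subgroups lie in every defect group.** -/
theorem IsDefect.normal_le {D : Subgroup G} {e : MonoidAlgebra k G} (he : IsBlock e)
    (hD : IsDefect p D e) {N : Subgroup G} [N.Normal] (hN : IsPGroup p N) : N ≤ D := by
  obtain ⟨c, hc⟩ := hD.2.1.subconj hN (br_ne_zero_of_normal hN he.1 he.2.1 he.2.2.1)
  intro u hu
  have h := hc (c⁻¹ * u * c) (by simpa using ‹N.Normal›.conj_mem u hu c⁻¹)
  rwa [show c * (c⁻¹ * u * c) * c⁻¹ = u by group] at h

omit [CharP k p] in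
/-- **Sylow defect groups.** -/
theorem IsDefect.sylow_iff {D : Subgroup G} {e : MonoidAlgebra k G}
    (hD : IsDefect p D e) : (∃ S : Sylow p G, (S : Subgroup G) = D) ↔
      ∃ g, e.coeff g ≠ 0 ∧ ¬ p ∣ (Subgroup.centralizer ({g} : Set G)).index := by
  constructor
  · rintro ⟨S, rfl⟩
    obtain ⟨g, hg, hne⟩ := exists_coeff_of_br hD.2.2
    refine ⟨g, hne, fun h => S.not_dvd_index (h.trans (Subgroup.index_dvd_of_le ?_))⟩
    exact fun u hu => Subgroup.mem_centralizer_singleton_iff.2
      (Subgroup.mem_centralizer_iff.1 hg u hu)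
  · rintro ⟨g, hne, hidx⟩
    set C := Subgroup.centralizer ({g} : Set G)
    obtain ⟨T⟩ : Nonempty (Sylow p C) := inferInstance
    obtain ⟨c, hc⟩ := hD.2.1.2 g hne ((T : Subgroup C).map C.subtype) (T.2.map _) (by
      rw [Subgroup.mem_centralizer_iff]
      rintro _ ⟨u, -, rfl⟩
      exact Subgroup.mem_centralizer_singleton_iff.1 u.2)
    obtain ⟨S, hS⟩ := hD.1.exists_le_sylow
    refine ⟨S, (Subgroup.eq_of_le_of_card_ge hS ?_).symm⟩
    refine le_trans ?_ (le_trans (le_of_eq (Nat.card_congr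
      (((T : Subgroup C).map C.subtype).equivMapOfInjective (MulAut.conj c).toMonoidHom
        (MulAut.conj c).injective).toEquiv))
      (Subgroup.card_le_of_le (by rintro _ ⟨u, hu, rfl⟩; exact hc u hu)))
    rw [← Nat.card_congr ((T : Subgroup C).equivMapOfInjective _ C.subtype_injective).toEquiv,
      S.card_eq_multiplicity, T.card_eq_multiplicity, ← C.card_mul_index,
      Nat.factorization_mul Nat.card_pos.ne' Subgroup.index_ne_zero_of_finite, Finsupp.add_apply,
      Nat.factorization_eq_zero_of_not_dvd hidx, add_zero]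

/-- The sum of the coefficients. -/
def aug (x : MonoidAlgebra k G) : k := ∑ g, x.coeff g

omit [CharP k p] hp in
theorem aug_mul (x y : MonoidAlgebra k G) : aug (x * y) = aug x * aug y := by
  simp only [aug, coeff_mul_sum, sum_mul_sum]
  rw [sum_comm]
  refine sum_congr rfl fun h _ => Fintype.sum_equiv (Equiv.mulLeft h⁻¹) _ _ fun g => rfl

/-- **The principal block**: exactly one block has nonzero augmentation; its defect groups are the
Sylow subgroups. -/
theorem exists_principal :
    ∃ e : MonoidAlgebra k G, IsBlock e ∧ aug e ≠ 0 ∧ (∀ S : Sylow p G, IsDefect p S e) ∧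
      ∀ f : MonoidAlgebra k G, IsBlock f → aug f ≠ 0 → f = e := by
  have h1 : aug (1 : MonoidAlgebra k G) = 1 := by
    rw [aug, Finset.sum_eq_single 1 (fun b _ hb => by
      simp [MonoidAlgebra.one_def, MonoidAlgebra.coeff_single, hb]) (by simp)]
    simp [MonoidAlgebra.one_def, MonoidAlgebra.coeff_single]
  obtain ⟨e, he, -, hea⟩ := exists_block (fun x : MonoidAlgebra k G => aug x ≠ 0)
    (by simp [aug])
    (fun a b _ _ _ _ _ ha => by
      by_contra hcon
      push Not at hcon
      refine ha ?_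
      have h2 := hcon.2
      simp only [aug, MonoidAlgebra.coeff_sub, Finsupp.sub_apply, sum_sub_distrib] at h2 ⊢
      have h3 : aug b = 0 := hcon.1
      rw [aug] at h3
      rwa [h3, sub_zero] at h2)
    (one_mem _) (one_mul 1) (by rw [h1]; exact one_ne_zero)
  refine ⟨e, he, hea, fun S => ⟨S.2, inI_sylow S he.1, fun hbr => hea ?_⟩, fun f hf hfa => ?_⟩
  · rw [aug, sum_fixed S.2 univ (fun _ _ _ _ => mem_univ _)
      (fun u _ g _ => mem_Z_iff.1 he.1 u g)]
    refine sum_eq_zero fun g hg => ?_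
    have h := congrArg (fun z : MonoidAlgebra k G => z.coeff g) hbr
    simp only [coeff_br, MonoidAlgebra.coeff_zero, Finsupp.zero_apply] at h
    exact (ite_eq_right_iff.1 h) (mem_filter.1 hg).2
  · have hfe : f * e ≠ 0 := fun h => mul_ne_zero hfa hea (by rw [← aug_mul, h]; simp [aug])
    have hc := Subalgebra.mem_center_iff.1 he.1 f
    have hidem : f * e * (f * e) = f * e := by
      rw [Commute.mul_mul_mul_comm hc.symm, hf.2.1, he.2.1]
    have h1 := (he.2.2.2 _ (mul_mem hf.1 he.1) hidem (by rw [mul_assoc, he.2.1])).resolve_left hfe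
    have h2 := (hf.2.2.2 _ (mul_mem hf.1 he.1) hidem (by
      rw [mul_assoc, ← hc, ← mul_assoc, hf.2.1])).resolve_left hfe
    rw [← h2, h1]

end FA.DefectGroups

end
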