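import Fermat.Agent.GlaubermanCorrespondence.Orbits
import Mathlib.Algebra.Algebra.Subalgebra.Basic
import Mathlib.Algebra.MonoidAlgebra.Basic
import Mathlib.GroupTheory.Sylow
import Mathlib.RingTheory.Artinian.Module
import Mathlib.LinearAlgebra.FiniteDimensional.Defs

/-!
# The Brauer homomorphism

For a `p`-group `P` the product of two `P`-fixed elements of `k[G]`, read at an element commuting
with `P`, only involves such elements.  So restricting the coefficients to `C(P)` is multiplicative,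
and the central elements supported by the classes whose `p`-subgroups are subconjugate to `D` form
an ideal.
-/

set_option autoImplicit false
set_option linter.style.haveILetI false

noncomputable section

open Finset
open scoped Classical

namespace FA.DefectGroups

variable {k : Type*} [Field k] {G : Type*} [Group G] [Fintype G]

/-- The element with given coefficients. -/
def mk (f : G → k) : MonoidAlgebra k G := .ofCoeff (Finsupp.equivFunOnFinite.symm f)

omit [Group G] in
theorem coeff_mk (f : G → k) (g : G) : (mk f).coeff g = f g := rfl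

omit [Group G] [Fintype G] in
theorem ext_coeff {x y : MonoidAlgebra k G} (h : ∀ g, x.coeff g = y.coeff g) : x = y :=
  MonoidAlgebra.ext (Finsupp.ext h)

/-- The product, coefficientwise. -/
theorem coeff_mul_sum (x y : MonoidAlgebra k G) (g : G) :
    (x * y).coeff g = ∑ h, x.coeff h * y.coeff (h⁻¹ * g) := by
  rw [MonoidAlgebra.coeff_mul, Finsupp.sum_fintype _ _ (fun h => by simp)]
  refine sum_congr rfl fun h _ => ?_
  rw [Finsupp.sum_fintype _ _ (fun h' => by simp), Finset.sum_eq_single (h⁻¹ * g)]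
  · rw [if_pos (mul_inv_cancel_left h g)]
  · intro b _ hb
    rw [if_neg fun he => hb (by rw [← he, inv_mul_cancel_left])]
  · exact fun hn => absurd (mem_univ _) hn

variable (k G) in
/-- The centre. -/
abbrev Z : Subalgebra k (MonoidAlgebra k G) := Subalgebra.center k (MonoidAlgebra k G)

/-- A class function. -/
def IsClass (x : MonoidAlgebra k G) : Prop := ∀ g h, x.coeff (g * h * g⁻¹) = x.coeff h

theorem mem_Z_iff {x : MonoidAlgebra k G} : x ∈ Z k G ↔ IsClass x := by
  constructor
  · intro hx g h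
    have h1 := congrArg (fun z : MonoidAlgebra k G => z.coeff (g * h))
      (Subalgebra.mem_center_iff.1 hx (MonoidAlgebra.single g 1))
    simp only [coeff_mul_sum] at h1
    rw [Finset.sum_eq_single g (fun b _ hb => by
        simp [MonoidAlgebra.coeff_single, Ne.symm hb]) (by simp),
      Finset.sum_eq_single (g * h * g⁻¹) (fun b _ hb => by
        have : g ≠ b⁻¹ * (g * h) := fun he => hb (by
          rw [eq_mul_inv_iff_mul_eq]; nth_rw 1 [he]; group)
        simp [MonoidAlgebra.coeff_single, this]) (by simp)] at h1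
    simpa [MonoidAlgebra.coeff_single, mul_assoc] using h1.symm
  · intro hx
    refine Subalgebra.mem_center_iff.2 fun y => ext_coeff fun g => ?_
    rw [coeff_mul_sum, coeff_mul_sum]
    refine Fintype.sum_equiv ((Equiv.inv G).trans (Equiv.mulLeft g)) _ _ fun h => ?_
    show _ = x.coeff (g * h⁻¹) * y.coeff ((g * h⁻¹)⁻¹ * g)
    rw [mul_comm, show (g * h⁻¹)⁻¹ * g = h by group, ← hx h (h⁻¹ * g)]
    congr 2
    group

variable {p : ℕ} [hp : Fact p.Prime] [CharP k p]

/-- Fixed by conjugation by `H`. -/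
def Fixed (H : Subgroup G) (x : MonoidAlgebra k G) : Prop :=
  ∀ u ∈ H, ∀ g, x.coeff (u * g * u⁻¹) = x.coeff g

omit [Fintype G] in
theorem fixed_of_class {x : MonoidAlgebra k G} (hx : IsClass x) (H : Subgroup G) : Fixed H x :=
  fun u _ g => hx u g

/-- A sum invariant under conjugation by a `p`-group. -/
theorem sum_fixed {P : Subgroup G} (hP : IsPGroup p P) (s : Finset G) {f : G → k}
    (hs : ∀ u ∈ P, ∀ g ∈ s, u * g * u⁻¹ ∈ s) (hf : ∀ u ∈ P, ∀ g ∈ s, f (u * g * u⁻¹) = f g) :
    ∑ g ∈ s, f g = ∑ g ∈ s.filter (fun g => g ∈ Subgroup.centralizer (P : Set G)), f g := by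
  letI : MulAction P G := MulAction.compHom G (MulAut.conj.comp P.subtype)
  rw [FA.GlaubermanCorrespondence.sum_eq_sum_fixedPoints hP s (fun u g hg => hs u u.2 g hg)
    (fun u g hg => hf u u.2 g hg)]
  refine sum_congr (filter_congr fun g _ => ?_) fun _ _ => rfl
  rw [MulAction.mem_fixedPoints, Subgroup.mem_centralizer_iff]
  exact ⟨fun h u hu => mul_inv_eq_iff_eq_mul.1 (h ⟨u, hu⟩),
    fun h u => mul_inv_eq_iff_eq_mul.2 (h u u.2)⟩

/-- **The product at an element commuting with `P`.** -/
theorem coeff_mul_centralizer {P : Subgroup G} (hP : IsPGroup p P) {x y : MonoidAlgebra k G}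
    (hx : Fixed P x) (hy : Fixed P y) {g : G} (hg : g ∈ Subgroup.centralizer (P : Set G)) :
    (x * y).coeff g = ∑ h ∈ univ.filter (fun h => h ∈ Subgroup.centralizer (P : Set G)),
      x.coeff h * y.coeff (h⁻¹ * g) := by
  rw [coeff_mul_sum]
  refine sum_fixed hP univ (fun _ _ _ _ => mem_univ _) fun u hu h _ => ?_
  rw [hx u hu, show (u * h * u⁻¹)⁻¹ * g = u * (h⁻¹ * g) * u⁻¹ by
    rw [show u * (h⁻¹ * g) * u⁻¹ = u * h⁻¹ * (g * u⁻¹) by group,
      ← show u⁻¹ * g = g * u⁻¹ from Subgroup.mem_centralizer_iff.1 hg _ (P.inv_mem hu)]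
    group, hy u hu]

/-- The Brauer map. -/
def br (P : Subgroup G) (x : MonoidAlgebra k G) : MonoidAlgebra k G :=
  mk fun g => if g ∈ Subgroup.centralizer (P : Set G) then x.coeff g else 0

theorem coeff_br (P : Subgroup G) (x : MonoidAlgebra k G) (g : G) :
    (br P x).coeff g = if g ∈ Subgroup.centralizer (P : Set G) then x.coeff g else 0 :=
  coeff_mk _ g

/-- **The Brauer map is multiplicative** on fixed elements. -/
theorem br_mul {P : Subgroup G} (hP : IsPGroup p P) {x y : MonoidAlgebra k G} (hx : Fixed P x)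
    (hy : Fixed P y) : br P (x * y) = br P x * br P y := ext_coeff fun g => by
  rw [coeff_mul_sum (br P x), coeff_br]
  split_ifs with hg
  · rw [coeff_mul_centralizer hP hx hy hg, sum_filter]
    refine sum_congr rfl fun h _ => ?_
    rw [coeff_br, coeff_br]
    by_cases hh : h ∈ Subgroup.centralizer (P : Set G)
    · rw [if_pos hh, if_pos hh, if_pos ((Subgroup.centralizer _).mul_mem
        ((Subgroup.centralizer _).inv_mem hh) hg)]
    · rw [if_neg hh, if_neg hh, zero_mul]
  · refine (sum_eq_zero fun h _ => ?_).symm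
    rw [coeff_br, coeff_br]
    by_cases hh : h ∈ Subgroup.centralizer (P : Set G)
    · rw [if_neg (fun h2 : h⁻¹ * g ∈ Subgroup.centralizer (P : Set G) => hg ?_), mul_zero]
      simpa using (Subgroup.centralizer (P : Set G)).mul_mem hh h2
    · rw [if_neg hh, zero_mul]

theorem br_zero (P : Subgroup G) : br P (0 : MonoidAlgebra k G) = 0 :=
  ext_coeff fun g => by simp [coeff_br]

theorem br_one (P : Subgroup G) : br P (1 : MonoidAlgebra k G) = 1 := ext_coeff fun g => by
  rw [coeff_br, MonoidAlgebra.one_def, MonoidAlgebra.coeff_single, Finsupp.single_apply]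
  by_cases h2 : (1 : G) = g
  · subst h2; simp
  · simp [h2]

theorem br_sub (P : Subgroup G) (x y : MonoidAlgebra k G) : br P (x - y) = br P x - br P y :=
  ext_coeff fun g => by simp [coeff_br, ite_sub_ite]

theorem br_add (P : Subgroup G) (x y : MonoidAlgebra k G) : br P (x + y) = br P x + br P y :=
  ext_coeff fun g => by
    simp only [coeff_br, MonoidAlgebra.coeff_add, Finsupp.add_apply]
    split_ifs <;> simp

variable (p) in
/-- All `p`-subgroups centralising `g` are subconjugate to `D`. -/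
def Sub (D : Subgroup G) (g : G) : Prop :=
  ∀ P : Subgroup G, IsPGroup p P → g ∈ Subgroup.centralizer (P : Set G) →
    ∃ c : G, ∀ u ∈ P, c * u * c⁻¹ ∈ D

variable (p) in
/-- The ideal of the classes with defect group inside `D`. -/
def InI (D : Subgroup G) (x : MonoidAlgebra k G) : Prop :=
  x ∈ Z k G ∧ ∀ g, x.coeff g ≠ 0 → Sub p D g

theorem InI.mul {D : Subgroup G} {x y : MonoidAlgebra k G} (hx : InI p D x) (hy : y ∈ Z k G) :
    InI p D (x * y) := by
  refine ⟨mul_mem hx.1 hy, fun g hg P hP hgP => ?_⟩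
  rw [coeff_mul_centralizer hP (fixed_of_class (mem_Z_iff.1 hx.1) P)
    (fixed_of_class (mem_Z_iff.1 hy) P) hgP] at hg
  obtain ⟨h, hh, hne⟩ := exists_ne_zero_of_sum_ne_zero hg
  exact hx.2 h (left_ne_zero_of_mul hne) P hP (mem_filter.1 hh).2

omit [CharP k p] hp [Fintype G] in
theorem InI.mono {D E : Subgroup G} {x : MonoidAlgebra k G} (hx : InI p D x)
    (h : ∃ c : G, ∀ u ∈ D, c * u * c⁻¹ ∈ E) : InI p E x := by
  refine ⟨hx.1, fun g hg P hP hgP => ?_⟩
  obtain ⟨c, hc⟩ := hx.2 g hg P hP hgP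
  obtain ⟨d, hd⟩ := h
  refine ⟨d * c, fun u hu => ?_⟩
  rw [show d * c * u * (d * c)⁻¹ = d * (c * u * c⁻¹) * d⁻¹ by group]
  exact hd _ (hc u hu)

omit [CharP k p] in
/-- Every central element lies in the ideal of a Sylow subgroup. -/
theorem inI_sylow (S : Sylow p G) {x : MonoidAlgebra k G} (hx : x ∈ Z k G) : InI p S x := by
  refine ⟨hx, fun g _ P hP _ => ?_⟩
  obtain ⟨T, hT⟩ := hP.exists_le_sylow
  obtain ⟨c, hc⟩ := MulAction.exists_smul_eq G T S
  refine ⟨c, fun u hu => ?_⟩
  rw [← hc]
  exact ⟨u, hT hu, rfl⟩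

omit [CharP k p] [Field k] in
/-- A Sylow subgroup of a centraliser. -/
theorem exists_sylow_centralizer (g : G) : ∃ P : Subgroup G, IsPGroup p P ∧
    g ∈ Subgroup.centralizer (P : Set G) ∧ Sub p P g := by
  set C := Subgroup.centralizer ({g} : Set G)
  obtain ⟨S⟩ : Nonempty (Sylow p C) := inferInstance
  refine ⟨(S : Subgroup C).map C.subtype, S.2.map _, ?_, fun P hP hgP => ?_⟩
  · rw [Subgroup.mem_centralizer_iff]
    rintro _ ⟨u, -, rfl⟩
    exact Subgroup.mem_centralizer_singleton_iff.1 u.2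
  · have hPC : P ≤ C := fun u hu => Subgroup.mem_centralizer_singleton_iff.2
      (Subgroup.mem_centralizer_iff.1 hgP u hu)
    obtain ⟨T, hT⟩ := (hP.comap_subtype (K := C)).exists_le_sylow
    obtain ⟨c, hc⟩ := MulAction.exists_smul_eq C T S
    refine ⟨c, fun u hu => ⟨c * ⟨u, hPC hu⟩ * c⁻¹, ?_, rfl⟩⟩
    rw [← hc]
    exact ⟨_, hT (Subgroup.mem_subgroupOf.2 hu), rfl⟩

/-- A block: a primitive idempotent of the centre. -/
def IsBlock (e : MonoidAlgebra k G) : Prop :=
  e ∈ Z k G ∧ e * e = e ∧ e ≠ 0 ∧ ∀ f ∈ Z k G, f * f = f → f * e = f → f = 0 ∨ f = e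

omit [CharP k p] hp in
theorem nilpotent_or_unit_aux {R : Type*} [CommRing R] [IsArtinianRing R] {e : R} (he : e * e = e)
    (hprim : ∀ f : R, f * f = f → f * e = f → f = 0 ∨ f = e) (a : R) :
    IsNilpotent (e * a) ∨ ∃ y, y * (e * a) = e := by
  obtain ⟨n, w, hw⟩ := IsArtinian.exists_pow_succ_smul_dvd (e * a) (1 : R)
  simp only [smul_eq_mul, mul_one, Nat.succ_eq_add_one] at hw
  have h2 : ∀ i, (e * a) ^ (n + i) * w ^ i = (e * a) ^ n := by
    intro i
    induction i with
    | zero => simp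
    | succ i ih => linear_combination (e * a) * w * ih + hw
  have hf : (e * ((e * a) ^ n * w ^ n)) * (e * ((e * a) ^ n * w ^ n)) =
      e * ((e * a) ^ n * w ^ n) := by
    linear_combination ((e * a) ^ n * w ^ n) ^ 2 * he + e * w ^ n * h2 n
  rcases hprim _ hf (by linear_combination ((e * a) ^ n * w ^ n) * he) with h0 | h0
  · refine Or.inl ⟨n + 1, ?_⟩
    linear_combination (-(e * a)) * h2 n - (a * (e * a) ^ (2 * n) * w ^ n) * he +
      (e * a) ^ (n + 1) * h0
  · rcases Nat.eq_zero_or_pos n with rfl | hn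
    · refine Or.inr ⟨e * w, ?_⟩
      linear_combination e * hw
    · obtain ⟨m, rfl⟩ : ∃ m, n = m + 1 := ⟨n - 1, by omega⟩
      refine Or.inr ⟨e * ((e * a) ^ m * w ^ (m + 1)), ?_⟩
      linear_combination h0

omit [CharP k p] hp in
/-- **The centre of a block is local.** -/
theorem IsBlock.nilpotent_or_unit {e a : MonoidAlgebra k G} (he : IsBlock e) (ha : a ∈ Z k G) :
    IsNilpotent (e * a) ∨ ∃ y ∈ Z k G, y * (e * a) = e := by
  haveI : IsArtinianRing (Z k G) := IsArtinianRing.of_finite k (Z k G)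
  rcases nilpotent_or_unit_aux (e := (⟨e, he.1⟩ : Z k G)) (Subtype.ext he.2.1) (fun f hf hfe =>
      (he.2.2.2 f f.2 (congrArg Subtype.val hf) (congrArg Subtype.val hfe)).imp
        (fun h => Subtype.ext h) fun h => Subtype.ext h) ⟨a, ha⟩ with h | ⟨y, hy⟩
  · obtain ⟨n, hn⟩ := h
    exact Or.inl ⟨n, by simpa using congrArg Subtype.val hn⟩
  · exact Or.inr ⟨y, y.2, congrArg Subtype.val hy⟩

omit [CharP k p] hp in
/-- **Rosenberg's lemma.** -/
theorem IsBlock.rosenberg {e : MonoidAlgebra k G} (he : IsBlock e) {ι : Type*} (s : Finset ι)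
    (a : ι → MonoidAlgebra k G) (ha : ∀ i ∈ s, a i ∈ Z k G) (h : e = ∑ i ∈ s, a i) :
    ∃ i ∈ s, ∃ y ∈ Z k G, y * (e * a i) = e := by
  by_contra hc
  push Not at hc
  have hn : ∀ i ∈ s, IsNilpotent (e * a i) := fun i hi =>
    (he.nilpotent_or_unit (ha i hi)).resolve_right fun ⟨y, hy, hye⟩ => hc i hi y hy hye
  have hs : IsNilpotent (∑ i ∈ s, e * a i) := Commute.isNilpotent_sum hn fun i j hi _ =>
    (Subalgebra.mem_center_iff.1 (mul_mem he.1 (ha i hi)) _).symm
  rw [← mul_sum, ← h, he.2.1] at hs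
  obtain ⟨m, hm⟩ := hs
  have he' : ∀ m, e ^ (m + 1) = e := fun m => by
    induction m with
    | zero => rw [zero_add, pow_one]
    | succ m ih => rw [pow_succ, ih, he.2.1]
  exact he.2.2.1 (by rw [← he' m, pow_succ, hm, zero_mul])

end FA.DefectGroups

end
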