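import Fermat.Agent.DefectGroups.Blocks
import Mathlib.GroupTheory.GroupAction.Quotient

/-!
# The relative trace

The ideal of `D` is the image of the trace from `D` to `G` of the `D`-fixed elements.
-/

set_option autoImplicit false
set_option linter.style.haveILetI false

noncomputable section

open Finset
open scoped Classical

namespace FA.DefectGroups

variable {k : Type*} [Field k] {G : Type*} [Group G] [Fintype G]
variable {p : ℕ} [hp : Fact p.Prime] [CharP k p]

/-- The relative trace. -/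
def tr (D : Subgroup G) (b : MonoidAlgebra k G) : MonoidAlgebra k G :=
  mk fun g => ∑ q : G ⧸ D, b.coeff (q.out⁻¹ * g * q.out)

omit [Fintype G] in
theorem coeff_out {D : Subgroup G} {b : MonoidAlgebra k G} (hb : Fixed D b) (x g : G) :
    b.coeff ((QuotientGroup.mk x : G ⧸ D).out⁻¹ * g * (QuotientGroup.mk x : G ⧸ D).out) =
      b.coeff (x⁻¹ * g * x) := by
  obtain ⟨d, hd⟩ := QuotientGroup.mk_out_eq_mul D x
  rw [hd, ← hb (d : G) d.2 ((x * d)⁻¹ * g * (x * d))]
  congr 1
  group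

omit [CharP k p] hp in
theorem tr_mem {D : Subgroup G} {b : MonoidAlgebra k G} (hb : Fixed D b) : tr D b ∈ Z k G := by
  refine mem_Z_iff.2 fun h g => ?_
  simp only [tr, coeff_mk]
  refine (Fintype.sum_equiv (MulAction.toPerm (h : G)) _ _ fun q => ?_).symm
  obtain ⟨x, rfl⟩ := QuotientGroup.mk_surjective q
  show _ = b.coeff ((h • (QuotientGroup.mk x : G ⧸ D)).out⁻¹ * (h * g * h⁻¹) *
    (h • (QuotientGroup.mk x : G ⧸ D)).out)
  rw [MulAction.Quotient.smul_mk, coeff_out hb, coeff_out hb, smul_eq_mul]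
  congr 1
  group

/-- **The trace lands in the ideal.** -/
theorem tr_inI {D : Subgroup G} {b : MonoidAlgebra k G} (hb : Fixed D b) : InI p D (tr D b) := by
  refine ⟨tr_mem hb, fun g hg P hP hgP => ?_⟩
  simp only [tr, coeff_mk] at hg
  rw [FA.GlaubermanCorrespondence.sum_eq_sum_fixedPoints (A := P) hP univ
    (fun _ _ _ => mem_univ _) (fun u q _ => ?_)] at hg
  · obtain ⟨q, hq, -⟩ := exists_ne_zero_of_sum_ne_zero hg
    obtain ⟨x, rfl⟩ := QuotientGroup.mk_surjective q
    refine ⟨x⁻¹, fun u hu => ?_⟩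
    have h : (QuotientGroup.mk ((u : G) * x) : G ⧸ D) = QuotientGroup.mk x :=
      MulAction.mem_fixedPoints.1 (mem_filter.1 hq).2 ⟨u, hu⟩
    have h2 := D.inv_mem (QuotientGroup.eq.1 h)
    rwa [show ((u * x)⁻¹ * x)⁻¹ = x⁻¹ * u * x⁻¹⁻¹ by group] at h2
  · obtain ⟨x, rfl⟩ := QuotientGroup.mk_surjective q
    show b.coeff ((QuotientGroup.mk ((u : G) * x) : G ⧸ D).out⁻¹ * g * _) = _
    rw [show u • (QuotientGroup.mk x : G ⧸ D) = QuotientGroup.mk ((u : G) * x) from rfl,
      coeff_out hb, coeff_out hb]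
    congr 1
    have h := Subgroup.mem_centralizer_iff.1 hgP u u.2
    calc ((u : G) * x)⁻¹ * g * ((u : G) * x) = x⁻¹ * ((u : G)⁻¹ * (g * u)) * x := by group
      _ = x⁻¹ * g * x := by rw [← h]; group

/-- A class indicator in the ideal is a trace. -/
theorem exists_trace_class {D : Subgroup G} {g : G} (hg : Sub p D g) :
    ∃ b : MonoidAlgebra k G, Fixed D b ∧
      ∀ x, (tr D b).coeff x = if IsConj g x then 1 else 0 := by
  set C := Subgroup.centralizer ({g} : Set G)
  obtain ⟨T⟩ : Nonempty (Sylow p C) := inferInstance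
  obtain ⟨c, hc⟩ := hg ((T : Subgroup C).map C.subtype) (T.2.map _) (by
    rw [Subgroup.mem_centralizer_iff]
    rintro _ ⟨u, -, rfl⟩
    exact Subgroup.mem_centralizer_singleton_iff.1 u.2)
  set Orb : G → Prop := fun y => ∃ d ∈ D, d * (c * g * c⁻¹) * d⁻¹ = y
  have hOrb : ∀ d ∈ D, ∀ y, Orb (d * y * d⁻¹) ↔ Orb y := fun d hd y => by
    constructor
    · rintro ⟨e, he, h⟩
      refine ⟨d⁻¹ * e, D.mul_mem (D.inv_mem hd) he, ?_⟩
      rw [show d⁻¹ * e * (c * g * c⁻¹) * (d⁻¹ * e)⁻¹ = d⁻¹ * (e * (c * g * c⁻¹) * e⁻¹) * d by group,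
        h]
      group
    · rintro ⟨e, he, h⟩
      refine ⟨d * e, D.mul_mem hd he, ?_⟩
      rw [← h]
      group
  set q₀ : G ⧸ D := QuotientGroup.mk c⁻¹
  have hiff : ∀ x : G, Orb (x⁻¹ * g * x) ↔
      (QuotientGroup.mk x : G ⧸ D) ∈ MulAction.orbit C q₀ := fun x => by
    constructor
    · rintro ⟨d, hd, h⟩
      have hz : x * d * c ∈ C := Subgroup.mem_centralizer_singleton_iff.2 (by
        calc x * d * c * g = x * (d * (c * g * c⁻¹) * d⁻¹) * (d * c) := by group
          _ = x * (x⁻¹ * g * x) * (d * c) := by rw [h]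
          _ = g * (x * d * c) := by group)
      refine ⟨⟨_, hz⟩, ?_⟩
      show (QuotientGroup.mk (x * d * c * c⁻¹) : G ⧸ D) = _
      rw [mul_inv_cancel_right, QuotientGroup.eq]
      simpa using D.inv_mem hd
    · rintro ⟨⟨z, hz⟩, h⟩
      have h1 : (z * c⁻¹)⁻¹ * x ∈ D :=
        QuotientGroup.eq.1 (h : (QuotientGroup.mk (z * c⁻¹) : G ⧸ D) = QuotientGroup.mk x)
      refine ⟨_, D.inv_mem h1, ?_⟩
      have hzg := Subgroup.mem_centralizer_singleton_iff.1 hz
      calc ((z * c⁻¹)⁻¹ * x)⁻¹ * (c * g * c⁻¹) * ((z * c⁻¹)⁻¹ * x)⁻¹⁻¹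
          = x⁻¹ * (z * g) * z⁻¹ * x := by group
        _ = x⁻¹ * g * x := by rw [hzg]; group
  set m : ℕ := Nat.card (MulAction.orbit C q₀)
  have hm : (m : k) ≠ 0 := by
    rw [Ne, CharP.cast_eq_zero_iff k p]
    intro h
    refine T.not_dvd_index (h.trans ?_)
    show Nat.card (MulAction.orbit C q₀) ∣ _
    rw [Nat.card_coe_set_eq, ← MulAction.index_stabilizer]
    refine Subgroup.index_dvd_of_le fun u hu => ?_
    show (QuotientGroup.mk ((u : G) * c⁻¹) : G ⧸ D) = QuotientGroup.mk c⁻¹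
    rw [QuotientGroup.eq]
    have h2 : (c * (u : G) * c⁻¹)⁻¹ ∈ D := D.inv_mem (hc _ ⟨u, hu, rfl⟩)
    rwa [show (c * (u : G) * c⁻¹)⁻¹ = ((u : G) * c⁻¹)⁻¹ * c⁻¹ by group] at h2
  set b : MonoidAlgebra k G := mk fun y => if Orb y then (m : k)⁻¹ else 0
  have hbf : Fixed D b := fun d hd y => by simp only [b, coeff_mk, hOrb d hd y]
  refine ⟨b, hbf, fun x => ?_⟩
  split_ifs with hx
  · obtain ⟨w, rfl⟩ := isConj_iff.1 hx
    rw [mem_Z_iff.1 (tr_mem hbf)]
    simp only [tr, coeff_mk, b]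
    rw [sum_congr rfl fun q _ => show (if Orb (q.out⁻¹ * g * q.out) then (m : k)⁻¹ else 0) =
      if q ∈ MulAction.orbit C q₀ then (m : k)⁻¹ else 0 by
        refine if_congr ?_ rfl rfl
        rw [hiff, QuotientGroup.out_eq'], ← sum_filter, sum_const, nsmul_eq_mul,
      show (univ.filter fun q => q ∈ MulAction.orbit C q₀).card = m by
        simp only [m, Nat.card_eq_fintype_card, Fintype.card_subtype],
      mul_inv_cancel₀ hm]
  · simp only [tr, coeff_mk, b]
    refine sum_eq_zero fun q _ => if_neg ?_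
    rintro ⟨d, -, h⟩
    exact hx (isConj_iff.2 ⟨q.out * d * c, by
      calc q.out * d * c * g * (q.out * d * c)⁻¹ =
          q.out * (d * (c * g * c⁻¹) * d⁻¹) * q.out⁻¹ := by group
        _ = x := by rw [h]; group⟩)

/-- **The ideal is the image of the trace.** -/
theorem inI_iff_trace {D : Subgroup G} {a : MonoidAlgebra k G} :
    InI p D a ↔ ∃ b, Fixed D b ∧ tr D b = a := by
  refine ⟨fun ha => ?_, fun ⟨b, hb, hab⟩ => hab ▸ tr_inI hb⟩
  have hrep : ∀ K : ConjClasses G, ∃ g, ConjClasses.mk g = K := fun K => ConjClasses.mk_surjective K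
  choose rep hrep using hrep
  have hb : ∀ K : ConjClasses G, ∃ b : MonoidAlgebra k G, Fixed D b ∧
      ∀ x, a.coeff (rep K) * (tr D b).coeff x =
        if ConjClasses.mk x = K then a.coeff (rep K) else 0 := fun K => by
    by_cases h : a.coeff (rep K) = 0
    · exact ⟨0, fun _ _ _ => by simp, fun x => by simp [h]⟩
    · obtain ⟨b, hb, hbv⟩ := exists_trace_class (k := k) (ha.2 _ h)
      refine ⟨b, hb, fun x => ?_⟩
      rw [hbv, mul_ite, mul_one, mul_zero]
      refine if_congr ?_ rfl rfl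
      conv_rhs => rw [← hrep K]
      rw [ConjClasses.mk_eq_mk_iff_isConj]
      exact ⟨IsConj.symm, IsConj.symm⟩
  choose b hbf hbv using hb
  refine ⟨mk fun y => ∑ K, a.coeff (rep K) * (b K).coeff y, fun d hd y => ?_, ext_coeff fun x => ?_⟩
  · simp only [coeff_mk, hbf _ d hd y]
  · simp only [tr, coeff_mk]
    rw [sum_comm]
    simp only [← mul_sum]
    have h : ∀ K, a.coeff (rep K) * ∑ q : G ⧸ D, (b K).coeff (q.out⁻¹ * x * q.out) =
        if ConjClasses.mk x = K then a.coeff (rep K) else 0 := fun K => by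
      rw [← hbv K x]
      rfl
    rw [sum_congr rfl fun K _ => h K, sum_ite_eq, if_pos (mem_univ _)]
    obtain ⟨w, hw⟩ := isConj_iff.1 (ConjClasses.mk_eq_mk_iff_isConj.1 (hrep (ConjClasses.mk x)))
    rw [← mem_Z_iff.1 ha.1 w (rep (ConjClasses.mk x)), hw]

end FA.DefectGroups

end
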